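/-
Lib/IgusaDeg (helper94), part 1: bivariate polynomials versus polynomials over `k(j)`.

`L = k((q))`, `j ∈ L` with `ord j = -1` (so `j` is transcendental over `k`), `K = k(j) ⊆ L`.
* `exists_evJ_of_mem_adjoin` : every element of `K` is a quotient of polynomials in `j`;
* `exists_biv_of_poly` : clearing denominators, `K[X] → k[Y][X]`;
* `isAlgebraic_of_biv`, `exists_biv_of_isAlgebraic` : `x ∈ L` is algebraic over `K` iff it satisfies
  a nonzero bivariate relation `P(j, x) = 0`.
-/
import Mathlib
import Fermat.Prelude.Def_ModularCurve_X0ModL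
import Fermat.Agent.S28.OrderLemma
import Fermat.Agent.S28.Eval

set_option autoImplicit false

namespace Fermat.Agent.IgusaDeg

open Polynomial ModularCurve Fermat.Agent.S28

noncomputable section

variable {k : Type*} [Field k]

/-- Every element of `k(j)` is a quotient of polynomials in `j`. -/
theorem exists_evJ_of_mem_adjoin (j : LaurentSeries k) {c : LaurentSeries k}
    (hc : c ∈ IntermediateField.adjoin k ({j} : Set (LaurentSeries k))) :
    ∃ a b : k[X], evJ j b ≠ 0 ∧ c * evJ j b = evJ j a := by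
  rw [IntermediateField.mem_adjoin_simple_iff] at hc
  obtain ⟨r, s, rfl⟩ := hc
  by_cases hs : aeval j s = 0
  · refine ⟨0, 1, ?_, ?_⟩
    · rw [map_one]; exact one_ne_zero
    · rw [hs, div_zero, zero_mul, map_zero]
  · refine ⟨r, s, hs, ?_⟩
    show aeval j r / aeval j s * aeval j s = aeval j r
    rw [div_mul_cancel₀ _ hs]

/-- The canonical map `k[Y] → k(j)`. -/
def toKj (j : LaurentSeries k) :
    k[X] →+* ↥(IntermediateField.adjoin k ({j} : Set (LaurentSeries k))) :=
  ((aeval (⟨j, IntermediateField.mem_adjoin_simple_self k j⟩ :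
    ↥(IntermediateField.adjoin k ({j} : Set (LaurentSeries k)))) :
      k[X] →ₐ[k] ↥(IntermediateField.adjoin k ({j} : Set (LaurentSeries k)))) : k[X] →+* _)

theorem coe_toKj (j : LaurentSeries k) (p : k[X]) :
    ((toKj j p : ↥(IntermediateField.adjoin k ({j} : Set (LaurentSeries k)))) :
      LaurentSeries k) = evJ j p := by
  have h := aeval_algebraMap_apply (LaurentSeries k)
    (⟨j, IntermediateField.mem_adjoin_simple_self k j⟩ :
      ↥(IntermediateField.adjoin k ({j} : Set (LaurentSeries k)))) p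
  exact h.symm

theorem algebraMap_comp_toKj (j : LaurentSeries k) :
    (algebraMap ↥(IntermediateField.adjoin k ({j} : Set (LaurentSeries k)))
      (LaurentSeries k)).comp (toKj j) = evJ j :=
  RingHom.ext fun p => coe_toKj j p

theorem toKj_injective (j : LaurentSeries k) (hj : ordV k j = ((-1 : ℤ) : WithTop ℤ)) :
    Function.Injective (toKj j) := by
  intro p q h
  apply evJ_injective j hj
  rw [← coe_toKj, ← coe_toKj, h]

/-- A nonzero bivariate relation gives algebraicity over `k(j)`. -/
theorem isAlgebraic_of_biv (j : LaurentSeries k) (hj : ordV k j = ((-1 : ℤ) : WithTop ℤ))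
    {x : LaurentSeries k} (P : k[X][X]) (hP : P ≠ 0) (hPx : P.eval₂ (evJ j) x = 0) :
    IsAlgebraic ↥(IntermediateField.adjoin k ({j} : Set (LaurentSeries k))) x := by
  refine ⟨P.map (toKj j), ?_, ?_⟩
  · rwa [Ne, Polynomial.map_eq_zero_iff (toKj_injective j hj)]
  · rw [aeval_def, eval₂_map, algebraMap_comp_toKj]
    exact hPx

/-- A monic bivariate relation gives integrality over `k(j)`. -/
theorem isIntegral_of_biv (j : LaurentSeries k)
    {x : LaurentSeries k} (P : k[X][X]) (hP : P.Monic) (hPx : P.eval₂ (evJ j) x = 0) :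
    IsIntegral ↥(IntermediateField.adjoin k ({j} : Set (LaurentSeries k))) x := by
  refine ⟨P.map (toKj j), hP.map _, ?_⟩
  rw [eval₂_map, algebraMap_comp_toKj]
  exact hPx

/-- Clearing denominators: for `m ∈ k(j)[X]` there are `b ∈ k[Y]`, `b ≠ 0`, and `P ∈ k[Y][X]` of
`X`-degree `≤ deg m` with `P(j, x) = b(j) · m(x)` for all `x`; and `P ≠ 0` if `m ≠ 0`. -/
theorem exists_biv_of_poly (j : LaurentSeries k)
    (m : (↥(IntermediateField.adjoin k ({j} : Set (LaurentSeries k))))[X]) :
    ∃ (b : k[X]) (P : k[X][X]), b ≠ 0 ∧ P.natDegree ≤ m.natDegree ∧ (m ≠ 0 → P ≠ 0) ∧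
      ∀ x : LaurentSeries k, P.eval₂ (evJ j) x = evJ j b * aeval x m := by
  classical
  have h : ∀ i : ℕ, ∃ a b : k[X], evJ j b ≠ 0 ∧
      ((m.coeff i : ↥(IntermediateField.adjoin k ({j} : Set (LaurentSeries k)))) :
        LaurentSeries k) * evJ j b = evJ j a :=
    fun i => exists_evJ_of_mem_adjoin j (m.coeff i).2
  choose r s hs hrs using h
  set I := Finset.range (m.natDegree + 1) with hI
  have hs0 : ∀ i, s i ≠ 0 := fun i h0 => hs i (by rw [h0, map_zero])
  refine ⟨∏ i ∈ I, s i, ∑ i ∈ I, C (r i * ∏ i' ∈ I.erase i, s i') * X ^ i, ?_, ?_, ?_, ?_⟩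
  · exact Finset.prod_ne_zero_iff.mpr fun i _ => hs0 i
  · refine natDegree_sum_le_of_forall_le _ _ fun i hi => ?_
    refine (natDegree_C_mul_X_pow_le _ _).trans ?_
    rw [hI, Finset.mem_range] at hi
    omega
  · intro hm
    have hd : m.natDegree ∈ I := by rw [hI, Finset.mem_range]; omega
    have hcoeff : (∑ i ∈ I, C (r i * ∏ i' ∈ I.erase i, s i') * X ^ i : k[X][X]).coeff m.natDegree
        = r m.natDegree * ∏ i' ∈ I.erase m.natDegree, s i' := by
      rw [finsetSum_coeff, Finset.sum_eq_single m.natDegree]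
      · rw [coeff_C_mul, coeff_X_pow, if_pos rfl, mul_one]
      · intro i _ hne
        rw [coeff_C_mul, coeff_X_pow, if_neg (Ne.symm hne), mul_zero]
      · intro h; exact absurd hd h
    intro h0
    have h1 := congrArg (fun Q : k[X][X] => Q.coeff m.natDegree) h0
    simp only [coeff_zero] at h1
    rw [hcoeff] at h1
    rcases mul_eq_zero.mp h1 with h2 | h2
    · have h3 := hrs m.natDegree
      rw [h2, map_zero] at h3
      rcases mul_eq_zero.mp h3 with h4 | h4
      · have h5 : m.coeff m.natDegree = 0 := by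
          apply Subtype.ext
          exact h4
        exact hm (leadingCoeff_eq_zero.mp h5)
      · exact hs _ h4
    · exact (Finset.prod_ne_zero_iff.mpr fun i _ => hs0 i) h2
  · intro x
    rw [eval₂_finsetSum, aeval_eq_sum_range, Finset.mul_sum]
    refine Finset.sum_congr rfl fun i hi => ?_
    rw [eval₂_mul, eval₂_C, eval₂_pow, eval₂_X, map_mul, ← hrs i,
      ← Finset.mul_prod_erase I s hi, map_mul, Algebra.smul_def,
      IntermediateField.algebraMap_apply]
    ring

/-- Algebraicity over `k(j)` gives a nonzero bivariate relation of `X`-degree at most the degree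
of the minimal polynomial. -/
theorem exists_biv_of_isAlgebraic (j : LaurentSeries k)
    {x : LaurentSeries k}
    (hx : IsAlgebraic ↥(IntermediateField.adjoin k ({j} : Set (LaurentSeries k))) x) :
    ∃ P : k[X][X], P ≠ 0 ∧
      P.natDegree ≤ (minpoly ↥(IntermediateField.adjoin k ({j} : Set (LaurentSeries k))) x).natDegree ∧
      P.eval₂ (evJ j) x = 0 := by
  obtain ⟨b, P, -, hdeg, hne, hev⟩ := exists_biv_of_poly j
    (minpoly ↥(IntermediateField.adjoin k ({j} : Set (LaurentSeries k))) x)
  refine ⟨P, hne (minpoly.ne_zero hx.isIntegral), hdeg, ?_⟩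
  rw [hev x, minpoly.aeval, mul_zero]

end

end Fermat.Agent.IgusaDeg
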