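/-
Lib/IgusaDeg (helper94), part 2: `j(q^d)` is algebraic over `k(j)` inside `k((q))`, for EVERY
field `k` and every `d ≥ 1`.

Route: over `ℚ` this is S28 (`j_d ∈ ℚ(j, u)`, `u` integral over `ℚ[j]`); clear denominators to get
an integral relation `Q(j, j_d) = 0`, `Q ∈ ℤ[Y][X]`, divide by powers of `p = char k` until `Q` is
not divisible by `p`, and reduce the coefficients to `k`.
-/
import Mathlib
import Fermat.Agent.Lib.IgusaDeg.Biv
import Fermat.Agent.S28.ThmA
import Fermat.Agent.S28.DescentMain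
import Fermat.Agent.S28.DescentD3

set_option autoImplicit false

namespace Fermat.Agent.IgusaDeg

open Polynomial ModularCurve Fermat.Agent.S28

noncomputable section

/-! ### Clearing denominators `ℚ → ℤ` -/

theorem exists_int_scale1 (c : ℚ[X]) :
    ∃ (D : ℤ) (cZ : ℤ[X]), D ≠ 0 ∧ cZ.map (Int.castRingHom ℚ) = C (D : ℚ) * c := by
  induction c using Polynomial.induction_on' with
  | add p q hp hq =>
    obtain ⟨D₁, p₁, hD₁, h₁⟩ := hp
    obtain ⟨D₂, p₂, hD₂, h₂⟩ := hq
    refine ⟨D₁ * D₂, C D₂ * p₁ + C D₁ * p₂, mul_ne_zero hD₁ hD₂, ?_⟩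
    rw [Polynomial.map_add, Polynomial.map_mul, Polynomial.map_mul, h₁, h₂, map_C, map_C]
    simp only [eq_intCast, Int.cast_mul, map_mul]
    ring
  | monomial n r =>
    refine ⟨r.den, monomial n r.num, by exact_mod_cast r.den_nz, ?_⟩
    rw [map_monomial, C_mul_monomial]
    congr 1
    simp only [eq_intCast, Int.cast_natCast]
    exact (Rat.den_mul_eq_num r).symm

theorem exists_int_scale2 (P : ℚ[X][X]) :
    ∃ (D : ℤ) (PZ : ℤ[X][X]), D ≠ 0 ∧
      PZ.map (mapRingHom (Int.castRingHom ℚ)) = C (C (D : ℚ)) * P := by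
  induction P using Polynomial.induction_on' with
  | add p q hp hq =>
    obtain ⟨D₁, p₁, hD₁, h₁⟩ := hp
    obtain ⟨D₂, p₂, hD₂, h₂⟩ := hq
    refine ⟨D₁ * D₂, C (C D₂) * p₁ + C (C D₁) * p₂, mul_ne_zero hD₁ hD₂, ?_⟩
    rw [Polynomial.map_add, Polynomial.map_mul, Polynomial.map_mul, h₁, h₂, map_C, map_C,
      coe_mapRingHom, map_C, map_C, eq_intCast, eq_intCast, Int.cast_mul, C_mul, C_mul]
    ring
  | monomial n c =>
    obtain ⟨D, cZ, hD, hc⟩ := exists_int_scale1 c
    refine ⟨D, monomial n cZ, hD, ?_⟩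
    rw [map_monomial, C_mul_monomial, coe_mapRingHom, hc]

/-! ### Integral relations -/

theorem intCast_injective_laurent {R : Type*} [CommRing R] [CharZero R] :
    Function.Injective (coeffMap (Int.castRingHom R)) :=
  coeffMap_injective (RingHom.injective_int (Int.castRingHom R))

/-- From a rational relation to an integral one. -/
theorem exists_int_relation (j x : LaurentSeries ℤ) (P : ℚ[X][X]) (hP : P ≠ 0)
    (hPx : pev2 (coeffMap (Int.castRingHom ℚ) j) (coeffMap (Int.castRingHom ℚ) x) P = 0) :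
    ∃ Q : ℤ[X][X], Q ≠ 0 ∧ Q.natDegree ≤ P.natDegree ∧ pev2 j x Q = 0 := by
  obtain ⟨D, Q, hD, hQ⟩ := exists_int_scale2 P
  have hD' : (C (C (D : ℚ)) : ℚ[X][X]) ≠ 0 := by
    rw [Ne, C_eq_zero, C_eq_zero]
    exact_mod_cast hD
  refine ⟨Q, ?_, ?_, ?_⟩
  · rintro rfl
    rw [Polynomial.map_zero] at hQ
    exact mul_ne_zero hD' hP hQ.symm
  · have h1 : (Q.map (mapRingHom (Int.castRingHom ℚ))).natDegree = Q.natDegree :=
      natDegree_map_eq_of_injective
        (Polynomial.map_injective _ (RingHom.injective_int (Int.castRingHom ℚ))) Q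
    rw [← h1, hQ, natDegree_C_mul (by rwa [Ne, C_eq_zero] at hD')]
  · apply intCast_injective_laurent (R := ℚ)
    rw [coeffMap_pev2, hQ, map_mul, hPx, mul_zero, map_zero]

/-- If all coefficients are divisible by `p`, the polynomial is divisible by `p`. -/
theorem exists_eq_C_mul_of_forall_dvd (p : ℤ) (Q : ℤ[X][X])
    (h : ∀ a b, p ∣ (Q.coeff a).coeff b) : ∃ Q₁ : ℤ[X][X], Q = C (C p) * Q₁ := by
  have h1 : C (C p) ∣ Q := by
    rw [C_dvd_iff_dvd_coeff]
    intro a
    rw [C_dvd_iff_dvd_coeff]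
    exact h a
  exact h1

theorem hahnC_intCast_ne_zero {p : ℤ} (hp : p ≠ 0) :
    (HahnSeries.C p : LaurentSeries ℤ) ≠ 0 := by
  intro h
  rw [HahnSeries.C_apply] at h
  have := congrArg (fun z : LaurentSeries ℤ => z.coeff 0) h
  simp only [HahnSeries.coeff_single_same, HahnSeries.coeff_zero] at this
  exact hp this

/-- A relation can be made primitive at `p`. -/
theorem exists_prim_relation (p : ℕ) (hp : p.Prime) (j x : LaurentSeries ℤ) :
    ∀ (m : ℕ) (Q : ℤ[X][X]) (a b : ℕ), ((Q.coeff a).coeff b).natAbs = m → m ≠ 0 →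
      pev2 j x Q = 0 →
      ∃ Q' : ℤ[X][X], pev2 j x Q' = 0 ∧ Q'.natDegree ≤ Q.natDegree ∧
        ∃ a b, ¬ (p : ℤ) ∣ (Q'.coeff a).coeff b := by
  intro m
  induction m using Nat.strong_induction_on with
  | _ m ih =>
    intro Q a b hm hm0 hQ
    by_cases h : ∀ a b, (p : ℤ) ∣ (Q.coeff a).coeff b
    · obtain ⟨Q₁, rfl⟩ := exists_eq_C_mul_of_forall_dvd p Q h
      have hp0 : (p : ℤ) ≠ 0 := by exact_mod_cast hp.ne_zero
      have hQ₁ : pev2 j x Q₁ = 0 := by
        rw [map_mul, pev2_C, pev1_C] at hQ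
        exact (mul_eq_zero.mp hQ).resolve_left (hahnC_intCast_ne_zero hp0)
      have hcoeff : ((C (C (p : ℤ)) * Q₁).coeff a).coeff b = p * (Q₁.coeff a).coeff b := by
        rw [coeff_C_mul, coeff_C_mul]
      rw [hcoeff, Int.natAbs_mul, Int.natAbs_natCast] at hm
      have hne : ((Q₁.coeff a).coeff b).natAbs ≠ 0 := by
        intro h0
        rw [h0, mul_zero] at hm
        exact hm0 hm.symm
      have hlt : ((Q₁.coeff a).coeff b).natAbs < m := by
        rw [← hm]
        have := hp.two_le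
        nlinarith [Nat.pos_of_ne_zero hne]
      obtain ⟨Q', h1, h2, h3⟩ := ih _ hlt Q₁ a b rfl hne hQ₁
      refine ⟨Q', h1, h2.trans ?_, h3⟩
      rw [natDegree_C_mul (by rwa [Ne, C_eq_zero])]
    · push Not at h
      exact ⟨Q, hQ, le_rfl, h⟩

/-- A nonzero integral relation reduces to a nonzero relation over every field. -/
theorem exists_field_relation (k : Type*) [Field k] (j x : LaurentSeries ℤ) (Q : ℤ[X][X])
    (hQ0 : Q ≠ 0) (hQ : pev2 j x Q = 0) :
    ∃ P : k[X][X], P ≠ 0 ∧ P.natDegree ≤ Q.natDegree ∧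
      pev2 (coeffMap (Int.castRingHom k) j) (coeffMap (Int.castRingHom k) x) P = 0 := by
  obtain ⟨p, hchar⟩ := CharP.exists k
  rcases CharP.char_is_prime_or_zero k p with hp | hp0
  · -- positive characteristic
    have hex : ∃ a b, (Q.coeff a).coeff b ≠ 0 := by
      by_contra hcon
      push Not at hcon
      exact hQ0 (by ext a b; simpa using hcon a b)
    obtain ⟨a, b, hab⟩ := hex
    obtain ⟨Q', h1, h2, a', b', h3⟩ := exists_prim_relation p hp j x _ Q a b rfl
      (Int.natAbs_ne_zero.mpr hab) hQ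
    refine ⟨Q'.map (mapRingHom (Int.castRingHom k)), ?_, (natDegree_map_le).trans h2, ?_⟩
    · intro h0
      have h4 := congrArg (fun R : k[X][X] => (R.coeff a').coeff b') h0
      simp only [coeff_map, coe_mapRingHom, coeff_zero, eq_intCast] at h4
      exact h3 ((CharP.intCast_eq_zero_iff k p _).mp h4)
    · rw [← coeffMap_pev2, h1, map_zero]
  · -- characteristic zero
    subst hp0
    have : CharZero k := CharP.charP_to_charZero k
    have hinj : Function.Injective (Int.castRingHom k) := RingHom.injective_int _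
    refine ⟨Q.map (mapRingHom (Int.castRingHom k)), ?_, natDegree_map_le, ?_⟩
    · rwa [Ne, Polynomial.map_eq_zero_iff (Polynomial.map_injective _ hinj)]
    · rw [← coeffMap_pev2, hQ, map_zero]

/-! ### The relation over `ℚ` (from S28) -/

theorem ordV_jqModC (k : Type*) [Field k] :
    ordV k (jqModC k) = ((-1 : ℤ) : WithTop ℤ) :=
  ordV_muSeries (-1) constantCoeff_jNum

/-- Elements of `k(j, u)` are algebraic over `k(j)` when `u` is integral over `k[j]`. -/
theorem isAlgebraic_of_mem_adjoin_pair {k : Type*} [Field k] (j u : LaurentSeries k)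
    (χ : k[X][X]) (hχm : χ.Monic) (hχu : χ.eval₂ (evJ j) u = 0) {x : LaurentSeries k}
    (hx : x ∈ IntermediateField.adjoin k ({j, u} : Set (LaurentSeries k))) :
    IsAlgebraic ↥(IntermediateField.adjoin k ({j} : Set (LaurentSeries k))) x := by
  have huint : IsIntegral ↥(IntermediateField.adjoin k ({j} : Set (LaurentSeries k))) u :=
    isIntegral_of_biv j χ hχm hχu
  have hmem2 : x ∈
      IntermediateField.adjoin ↥(IntermediateField.adjoin k ({j} : Set (LaurentSeries k)))
        ({u} : Set (LaurentSeries k)) := by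
    rw [← IntermediateField.mem_restrictScalars (K := k), IntermediateField.adjoin_adjoin_left,
      Set.singleton_union]
    exact hx
  have := IntermediateField.isAlgebraic_adjoin_simple huint
  have h1 := Algebra.IsAlgebraic.isAlgebraic
    (R := ↥(IntermediateField.adjoin k ({j} : Set (LaurentSeries k))))
    (⟨x, hmem2⟩ :
      ↥(IntermediateField.adjoin ↥(IntermediateField.adjoin k ({j} : Set (LaurentSeries k)))
        ({u} : Set (LaurentSeries k))))
  exact IntermediateField.isAlgebraic_iff.mp h1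

theorem exists_rat_relation (d : ℕ) [NeZero d] :
    ∃ P : ℚ[X][X], P ≠ 0 ∧ P.eval₂ (evJ (jqModC ℚ)) (qExpand ℚ d (jqModC ℚ)) = 0 := by
  obtain ⟨p, hpd, hp⟩ := Nat.exists_infinite_primes (d + 1)
  have : Fact p.Prime := ⟨hp⟩
  have hpd' : ¬ p ∣ d :=
    Nat.not_dvd_of_pos_of_lt (Nat.pos_of_ne_zero (NeZero.ne d)) (by omega)
  obtain ⟨n, φ, u, χQ, hφ, hu, hχm, hχd, hχc, -, hχu, hA⟩ := descent_main d p hpd' (thmA d)
  have hle := modularFunctionFieldFull_le_adjoin' d hφ u hu χQ hχm hχd hχc hχu hA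
  have hmem : qExpand ℚ d (jqModC ℚ) ∈
      IntermediateField.adjoin ℚ ({jqModC ℚ, u} : Set (LaurentSeries ℚ)) :=
    hle (jqModCd_mem_full ℚ d dvd_rfl)
  have halg := isAlgebraic_of_mem_adjoin_pair (jqModC ℚ) u χQ hχm hχu hmem
  obtain ⟨P, hP0, -, hP⟩ := exists_biv_of_isAlgebraic (jqModC ℚ) halg
  exact ⟨P, hP0, hP⟩

/-! ### The main statement -/

/-- There is a nonzero integral relation between `j` and `j(q^d)`. -/
theorem exists_int_relation_jd (d : ℕ) [NeZero d] :
    ∃ Q : ℤ[X][X], Q ≠ 0 ∧ pev2 (jqModC ℤ) (qExpand ℤ d (jqModC ℤ)) Q = 0 := by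
  obtain ⟨P, hP0, hP⟩ := exists_rat_relation d
  obtain ⟨Q, hQ0, -, hQ⟩ := exists_int_relation (jqModC ℤ) (qExpand ℤ d (jqModC ℤ)) P hP0 (by
    rw [coeffMap_qExpand, coeffMap_jqModC, pev2_eq_eval₂_evJ]
    exact hP)
  exact ⟨Q, hQ0, hQ⟩

/-- Over every field `k`, there is a nonzero relation `P(j, j(q^d)) = 0`, `P ∈ k[Y][X]`. -/
theorem exists_relation_jd (k : Type*) [Field k] (d : ℕ) [NeZero d] :
    ∃ P : k[X][X], P ≠ 0 ∧ P.eval₂ (evJ (jqModC k)) (qExpand k d (jqModC k)) = 0 := by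
  obtain ⟨Q, hQ0, hQ⟩ := exists_int_relation_jd d
  obtain ⟨P, hP0, -, hP⟩ := exists_field_relation k _ _ Q hQ0 hQ
  refine ⟨P, hP0, ?_⟩
  rw [coeffMap_qExpand, coeffMap_jqModC, pev2_eq_eval₂_evJ] at hP
  exact hP

/-- **`j(q^d)` is algebraic over `k(j)`**, for every field `k` and every `d ≥ 1`. -/
theorem isAlgebraic_jd (k : Type*) [Field k] (d : ℕ) [NeZero d] :
    IsAlgebraic ↥(IntermediateField.adjoin k ({jqModC k} : Set (LaurentSeries k)))
      (qExpand k d (jqModC k)) := by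
  obtain ⟨P, hP0, hP⟩ := exists_relation_jd k d
  exact isAlgebraic_of_biv (jqModC k) (ordV_jqModC k) P hP0 hP

end

end Fermat.Agent.IgusaDeg
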