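/-
Lib/IgusaDeg (helper94), part 3: the derivation `θ = q d/dq` on Laurent series over a commutative
ring, its compatibility with change of coefficients and with `q ↦ q^d`, and the chain rule for
bivariate polynomial expressions `P(j, x)`.
-/
import Mathlib
import Fermat.Prelude.Def_ModularCurve_X0ModL
import Fermat.Agent.S28.Eval

set_option autoImplicit false

namespace Fermat.Agent.IgusaDeg

open Polynomial ModularCurve Fermat.Agent.S28

noncomputable section

variable {R : Type*} [CommRing R]

/-- `θ = q d/dq`, coefficientwise. -/
def thetaFun (x : LaurentSeries R) : LaurentSeries R where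
  coeff n := (n : R) * x.coeff n
  isPWO_support' := x.isPWO_support.mono fun n hn => by
    rw [HahnSeries.mem_support]
    intro h
    exact hn (by simp only [h, mul_zero])

@[simp] theorem thetaFun_coeff (x : LaurentSeries R) (n : ℤ) :
    (thetaFun x).coeff n = (n : R) * x.coeff n := rfl

theorem thetaFun_support_subset (x : LaurentSeries R) : (thetaFun x).support ⊆ x.support := by
  intro n hn
  rw [HahnSeries.mem_support] at hn ⊢
  intro h
  exact hn (by rw [thetaFun_coeff, h, mul_zero])

theorem thetaFun_mul (x y : LaurentSeries R) :
    thetaFun (x * y) = x * thetaFun y + y * thetaFun x := by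
  ext n
  rw [thetaFun_coeff, HahnSeries.coeff_add, HahnSeries.coeff_mul,
    HahnSeries.coeff_mul_right' y.isPWO_support (thetaFun_support_subset y), mul_comm y,
    HahnSeries.coeff_mul_left' x.isPWO_support (thetaFun_support_subset x),
    Finset.mul_sum, ← Finset.sum_add_distrib]
  refine Finset.sum_congr rfl fun ij hij => ?_
  have h : ij.1 + ij.2 = n := (Finset.mem_antidiagonal.mp hij).2.2
  simp only [thetaFun_coeff]
  rw [← h]
  push_cast
  ring

variable (R) in
/-- `θ = q d/dq` as an additive map of `R((q))` (it satisfies the Leibniz rule `theta_mul`). -/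
def theta : LaurentSeries R →+ LaurentSeries R where
  toFun := thetaFun
  map_zero' := by
    ext n
    simp only [thetaFun_coeff, HahnSeries.coeff_zero, mul_zero]
  map_add' x y := by
    ext n
    simp only [thetaFun_coeff, HahnSeries.coeff_add, mul_add]

@[simp] theorem theta_coeff (x : LaurentSeries R) (n : ℤ) :
    (theta R x).coeff n = (n : R) * x.coeff n := rfl

theorem theta_mul (x y : LaurentSeries R) :
    theta R (x * y) = x * theta R y + y * theta R x :=
  thetaFun_mul x y

theorem theta_one : theta R (1 : LaurentSeries R) = 0 := by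
  ext n
  rw [theta_coeff, HahnSeries.coeff_one]
  split_ifs with h
  · subst h; simp
  · simp

theorem theta_pow (x : LaurentSeries R) (n : ℕ) :
    theta R (x ^ n) = (n : LaurentSeries R) * x ^ (n - 1) * theta R x := by
  induction n with
  | zero => simp [theta_one]
  | succ n ih =>
    rw [pow_succ, theta_mul, ih]
    rcases Nat.eq_zero_or_pos n with rfl | hn
    · simp
    · have : x ^ n = x ^ (n - 1) * x := by
        rw [← pow_succ, Nat.sub_add_cancel hn]
      rw [Nat.add_sub_cancel]
      push_cast
      rw [this]
      ring

theorem theta_hahnC (c : R) : theta R (HahnSeries.C c) = 0 := by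
  ext n
  rw [theta_coeff, HahnSeries.C_apply, HahnSeries.coeff_zero]
  rcases eq_or_ne n 0 with rfl | h
  · simp
  · rw [HahnSeries.coeff_single_of_ne h, mul_zero]

/-- Change of coefficients commutes with `θ`. -/
theorem coeffMap_theta {S : Type*} [CommRing S] (f : R →+* S) (x : LaurentSeries R) :
    coeffMap f (theta R x) = theta S (coeffMap f x) := by
  ext n
  rw [coeffMap_coeff, theta_coeff, theta_coeff, coeffMap_coeff, map_mul, map_intCast]

/-- `θ (x(q^d)) = d · (θ x)(q^d)`. -/
theorem theta_qExpand (d : ℕ) [NeZero d] (x : LaurentSeries R) :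
    theta R (qExpand R d x) = (d : LaurentSeries R) * qExpand R d (theta R x) := by
  have hd : ((d : ℕ) : LaurentSeries R) = HahnSeries.C (d : R) := by
    rw [map_natCast]
  rw [hd]
  ext n
  rw [theta_coeff, HahnSeries.C_apply, HahnSeries.coeff_single_zero_mul]
  by_cases hn : (d : ℤ) ∣ n
  · obtain ⟨m, rfl⟩ := hn
    rw [qExpand_coeff_mul, qExpand_coeff_mul, theta_coeff]
    push_cast
    ring
  · rw [qExpand_coeff_of_not_dvd _ _ hn, qExpand_coeff_of_not_dvd _ _ hn, mul_zero, mul_zero]

/-! ### The chain rule -/

theorem theta_pev1 (j : LaurentSeries R) (p : R[X]) :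
    theta R (pev1 j p) = pev1 j (derivative p) * theta R j := by
  induction p using Polynomial.induction_on' with
  | add p q hp hq =>
    rw [map_add, map_add, hp, hq, derivative_add, map_add]
    ring
  | monomial n c =>
    rw [derivative_monomial, pev1_apply, pev1_apply, eval₂_monomial, eval₂_monomial, theta_mul,
      theta_hahnC, theta_pow, map_mul, map_natCast]
    ring

/-- The partial derivative with respect to the inner variable. -/
def dY (P : R[X][X]) : R[X][X] := P.sum fun i c => monomial i (derivative c)

theorem dY_add (P Q : R[X][X]) : dY (P + Q) = dY P + dY Q := by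
  unfold dY
  rw [sum_add_index]
  · intro i; simp
  · intro i a b; simp

theorem dY_monomial (n : ℕ) (c : R[X]) : dY (monomial n c) = monomial n (derivative c) := by
  unfold dY
  rw [sum_monomial_index]
  simp

theorem dY_zero : dY (0 : R[X][X]) = 0 := by
  unfold dY
  rw [sum_zero_index]

theorem coeff_dY (P : R[X][X]) (i : ℕ) : (dY P).coeff i = derivative (P.coeff i) := by
  induction P using Polynomial.induction_on' with
  | add p q hp hq => rw [dY_add, coeff_add, coeff_add, hp, hq, derivative_add]
  | monomial n c =>
    rw [dY_monomial, coeff_monomial, coeff_monomial]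
    split_ifs <;> simp

theorem natDegree_dY_le (P : R[X][X]) : (dY P).natDegree ≤ P.natDegree := by
  rw [natDegree_le_iff_coeff_eq_zero]
  intro i hi
  rw [coeff_dY, coeff_eq_zero_of_natDegree_lt hi, derivative_zero]

/-- The chain rule: `θ (P(j, x)) = (∂_Y P)(j, x) θ j + (∂_X P)(j, x) θ x`. -/
theorem theta_pev2 (j x : LaurentSeries R) (P : R[X][X]) :
    theta R (pev2 j x P) =
      pev2 j x (dY P) * theta R j + pev2 j x (derivative P) * theta R x := by
  induction P using Polynomial.induction_on' with
  | add p q hp hq =>
    rw [map_add, map_add, hp, hq, dY_add, derivative_add, map_add, map_add]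
    ring
  | monomial n c =>
    rw [dY_monomial, derivative_monomial, pev2_apply, pev2_apply, pev2_apply, eval₂_monomial,
      eval₂_monomial, eval₂_monomial, theta_mul, theta_pev1, theta_pow, map_mul, map_natCast]
    ring

/-- `θ j ≠ 0` for the `j`-invariant, over every nontrivial ring. -/
theorem theta_jqModC_ne_zero [Nontrivial R] : theta R (jqModC R) ≠ 0 := by
  intro h
  have h1 := congrArg (fun z : LaurentSeries R => z.coeff (-1)) h
  simp only [theta_coeff, HahnSeries.coeff_zero, coeff_jqModC_neg_one] at h1
  simp at h1

end

end Fermat.Agent.IgusaDeg
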