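/-
Lib/IgusaDeg (helper94), part 4: the `q`-expansion of the normalized derivative.

`hasQ_normDeriv : HasQ f s → MDiff f → HasQ (D f) (θ s)`, where `D = (2πi)⁻¹ d/dτ` and
`θ = q d/dq` (`Theta.lean`).
-/
import Fermat.Agent.Lib.IgusaDeg.Theta
import Fermat.Agent.S28.QExp
import Fermat.Agent.S20.Ramanujan

set_option autoImplicit false

namespace Fermat.Agent.IgusaDeg

open UpperHalfPlane ModularForm Filter Complex Function
open scoped Real Topology MatrixGroups ModularForm Manifold Derivative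
open Fermat.Agent.S28 Fermat.Agent.S28.QExp ModularCurve
open Fermat.Agent.S23 (QA)

noncomputable section

local notation "𝕢" => Function.Periodic.qParam

/-! ### `θ` on power series -/

/-- `θ = q d/dq` on power series. -/
def psTheta {R : Type*} [CommRing R] (P : PowerSeries R) : PowerSeries R :=
  PowerSeries.mk fun n => (n : R) * P.coeff n

theorem coeff_psTheta {R : Type*} [CommRing R] (P : PowerSeries R) (n : ℕ) :
    (psTheta P).coeff n = (n : R) * P.coeff n := by
  simp [psTheta]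

theorem theta_ofPowerSeries {R : Type*} [CommRing R] (P : PowerSeries R) :
    theta R (HahnSeries.ofPowerSeries ℤ R P) = HahnSeries.ofPowerSeries ℤ R (psTheta P) := by
  ext n
  rw [theta_coeff]
  rcases le_or_gt 0 n with hn | hn
  · lift n to ℕ using hn
    rw [HahnSeries.ofPowerSeries_apply_coeff, HahnSeries.ofPowerSeries_apply_coeff, coeff_psTheta]
    simp
  · rw [ofPowerSeries_coeff_of_neg _ hn, ofPowerSeries_coeff_of_neg _ hn, mul_zero]

theorem theta_single_one {R : Type*} [CommRing R] (m : ℤ) :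
    theta R (HahnSeries.single m (1 : R)) = HahnSeries.C (m : R) * HahnSeries.single m 1 := by
  ext n
  rw [theta_coeff, HahnSeries.C_apply, HahnSeries.coeff_single_zero_mul]
  rcases eq_or_ne n m with rfl | h
  · rfl
  · rw [HahnSeries.coeff_single_of_ne h, mul_zero, mul_zero]

/-- Taylor series of `q ↦ q c'(q)`. -/
theorem taylor0_mul_deriv {c : ℂ → ℂ} (hc : AnalyticAt ℂ c 0) :
    taylor0 (fun q => q * deriv c q) = psTheta (taylor0 c) := by
  have h1 : (fun q : ℂ => q * deriv c q) = (fun q : ℂ => q) * deriv c := rfl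
  rw [h1, taylor0_mul (c := fun q : ℂ => q) (c' := deriv c) analyticAt_id hc.deriv, taylor0_id]
  ext n
  rw [coeff_psTheta]
  cases n with
  | zero => simp
  | succ m =>
    rw [PowerSeries.coeff_succ_X_mul, coeff_taylor0, coeff_taylor0, iteratedDeriv_succ',
      Nat.factorial_succ]
    have h2 : ((m + 1 : ℕ) : ℂ) ≠ 0 := by exact_mod_cast Nat.succ_ne_zero m
    have h3 : ((m.factorial : ℕ) : ℂ) ≠ 0 := by exact_mod_cast Nat.factorial_ne_zero m
    push_cast
    field_simp

/-! ### The normalized derivative of a periodic holomorphic function -/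

theorem normDeriv_eq {F : ℍ → ℂ} (hper : IsPer F) (hhol : MDiff F) (z : ℍ) :
    D F z = qFun z * deriv (cuspFunction 1 F) (qFun z) := by
  have h1 : (F ∘ ofComplex) =ᶠ[𝓝 (z : ℂ)] (cuspFunction 1 F) ∘ (𝕢 1) := by
    filter_upwards [isOpen_upperHalfPlaneSet.mem_nhds z.im_pos] with w hw
    have := eq_cuspFunction (f := F) ⟨w, hw⟩ one_ne_zero hper
    simp only [Function.comp_apply, ofComplex_apply_of_im_pos hw]
    exact this.symm
  have hc : DifferentiableAt ℂ (cuspFunction 1 F) (𝕢 1 (z : ℂ)) :=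
    Function.Periodic.differentiableAt_cuspFunction one_ne_zero hper
      (UpperHalfPlane.mdifferentiableAt_iff.mp (hhol z))
  have h2 : HasDerivAt ((cuspFunction 1 F) ∘ (𝕢 1))
      (deriv (cuspFunction 1 F) (𝕢 1 (z : ℂ)) * (2 * Real.pi * Complex.I * 𝕢 1 (z : ℂ))) (z : ℂ) :=
    hc.hasDerivAt.comp (z : ℂ) (Fermat.Agent.S20.ramanujanAux_hasDerivAt_qParam (z : ℂ))
  rw [Derivative.normalizedDerivOfComplex, h1.deriv_eq, h2.deriv]
  have hpi : (2 * (Real.pi : ℂ) * Complex.I) ≠ 0 := by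
    simp [Real.pi_ne_zero]
  show _ = 𝕢 1 (z : ℂ) * deriv (cuspFunction 1 F) (𝕢 1 (z : ℂ))
  field_simp

theorem isPer_normDeriv {F : ℍ → ℂ} (hper : IsPer F) : IsPer (D F) := by
  rw [isPer_iff]
  intro τ
  have h1 : ((((1 : ℝ) +ᵥ τ : ℍ)) : ℂ) = (τ : ℂ) + 1 := by
    rw [coe_vadd]; push_cast; ring
  have h2 : (fun w : ℂ => (F ∘ ofComplex) (w + 1)) = F ∘ ofComplex := funext fun w => hper w
  show (2 * Real.pi * Complex.I)⁻¹ * deriv (F ∘ ofComplex) (((1 : ℝ) +ᵥ τ : ℍ) : ℂ) =
    (2 * Real.pi * Complex.I)⁻¹ * deriv (F ∘ ofComplex) (τ : ℂ)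
  rw [h1, ← deriv_comp_add_const, h2]

theorem mdiff_qFun : MDiff qFun := by
  rw [UpperHalfPlane.mdifferentiable_iff]
  refine (Function.Periodic.differentiable_qParam (h := 1)).differentiableOn.congr ?_
  intro w hw
  simp only [Function.comp_apply, qFun]
  rw [ofComplex_apply_of_im_pos hw]

theorem normDeriv_qFun : D qFun = qFun := by
  funext z
  have h1 : (qFun ∘ ofComplex) =ᶠ[𝓝 (z : ℂ)] (𝕢 1) := by
    filter_upwards [isOpen_upperHalfPlaneSet.mem_nhds z.im_pos] with w hw
    simp only [Function.comp_apply, qFun, ofComplex_apply_of_im_pos hw]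
  rw [Derivative.normalizedDerivOfComplex, h1.deriv_eq,
    (Fermat.Agent.S20.ramanujanAux_hasDerivAt_qParam (z : ℂ)).deriv]
  have hpi : (2 * (Real.pi : ℂ) * Complex.I) ≠ 0 := by
    simp [Real.pi_ne_zero]
  show _ = 𝕢 1 (z : ℂ)
  field_simp

/-- The holomorphic case. -/
theorem qa_normDeriv {g : ℍ → ℂ} (hper : IsPer g) (hhol : MDiff g) (hqa : QA g) :
    QA (D g) ∧ qExpansion 1 (D g) = psTheta (qExpansion 1 g) := by
  have hc : AnalyticAt ℂ (fun q : ℂ => q * deriv (cuspFunction 1 g) q) 0 :=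
    analyticAt_id.mul hqa.deriv
  have h := qa_of_eq (f := D g) one_pos hc fun τ _ => normDeriv_eq hper hhol τ
  refine ⟨h.1, ?_⟩
  rw [h.2, taylor0_mul_deriv hqa, qExpansion_eq_taylor0]

/-- **The `q`-expansion of the normalized derivative**. -/
theorem hasQ_normDeriv {f : ℍ → ℂ} {s : LaurentSeries ℂ} (hf : HasQ f s) (hhol : MDiff f) :
    HasQ (D f) (theta ℂ s) := by
  obtain ⟨hper, m, hqa, hexp⟩ := hf
  have hqm : MDiff (qFun ^ m) := mdiff_qFun.pow m
  have hg : MDiff (f * qFun ^ m) := hhol.mul hqm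
  have hgper : IsPer (f * qFun ^ m) := hper.mul (isPer_qFun.pow m)
  obtain ⟨h1, h2⟩ := qa_normDeriv hgper hg hqa
  -- `D f · q^m = D g - m g`
  have hD : D f * qFun ^ m = D (f * qFun ^ m) - (m : ℂ) • (f * qFun ^ m) := by
    rw [Derivative.normalizedDerivOfComplex_mul f (qFun ^ m) hhol hqm,
      Derivative.normalizedDerivOfComplex_pow qFun m mdiff_qFun, normDeriv_qFun]
    funext z
    simp only [Pi.add_apply, Pi.mul_apply, Pi.sub_apply, Pi.smul_apply, Pi.pow_apply,
      Pi.natCast_apply, smul_eq_mul]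
    rcases Nat.eq_zero_or_pos m with rfl | hm
    · simp
    · have : qFun z ^ m = qFun z ^ (m - 1) * qFun z := by
        rw [← pow_succ, Nat.sub_add_cancel hm]
      rw [this]
      ring
  refine ⟨isPer_normDeriv hper, m, ?_, ?_⟩
  · rw [hD]
    exact h1.sub (hqa.smul _)
  · rw [hD, sub_eq_add_neg, h1.qExpansion_add (hqa.smul _).neg, (hqa.smul _).qExpansion_neg,
      hqa.qExpansion_smul, h2, map_add, map_neg, ← theta_ofPowerSeries, hexp, theta_mul,
      theta_single_one]
    have h3 : HahnSeries.ofPowerSeries ℤ ℂ ((m : ℂ) • qExpansion 1 (f * qFun ^ m)) =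
        HahnSeries.C (m : ℂ) * (HahnSeries.single (m : ℤ) 1 * s) := by
      rw [PowerSeries.smul_eq_C_mul, map_mul, HahnSeries.ofPowerSeries_C, hexp]
    rw [h3]
    push_cast
    ring

end

end Fermat.Agent.IgusaDeg
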