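/-
Lib/IgusaDeg (helper94), part 5: the formal identity

  `(θ j)^6 = Δ · j^4 · (j - 1728)^3`       (`θ = q d/dq`)

over `ℂ` (from Ramanujan's identities, `S20/Ramanujan.lean`, and `Δ = (E₄³ - E₆²)/1728`), hence
over `ℤ` and over every commutative ring.
-/
import Fermat.Agent.Lib.IgusaDeg.ThetaQ
import Fermat.Agent.S28.FormalUnit

set_option autoImplicit false

namespace Fermat.Agent.IgusaDeg

open UpperHalfPlane ModularForm Filter Complex Function EisensteinSeries
open scoped Real Topology MatrixGroups ModularForm Manifold Derivative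
open Fermat.Agent.S28 Fermat.Agent.S28.QExp ModularCurve

noncomputable section

/-! ### The analytic identity -/

theorem mdiff_discriminant : MDiff ModularForm.discriminant :=
  CuspFormClass.holo CuspForm.discriminant

theorem mdiff_E4 : MDiff (⇑E₄ : ℍ → ℂ) := ModularFormClass.holo E₄

theorem mdiff_jFun : MDiff jFun := by
  have h1 := mdiff_discriminant
  have h2 := mdiff_E4
  rw [UpperHalfPlane.mdifferentiable_iff] at h1 h2 ⊢
  have h3 : DifferentiableOn ℂ
      (fun w => ((⇑E₄ : ℍ → ℂ) ∘ ofComplex) w ^ 3 / (ModularForm.discriminant ∘ ofComplex) w)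
      upperHalfPlaneSet :=
    (h2.pow 3).div h1 fun w _ => discriminant_ne_zero _
  exact h3.congr fun w _ => rfl

theorem jFun_mul_discriminant :
    jFun * ModularForm.discriminant = (⇑E₄ : ℍ → ℂ) ^ 3 := by
  funext τ
  simp only [Pi.mul_apply, Pi.pow_apply, jFun]
  exact div_mul_cancel₀ _ (discriminant_ne_zero τ)

theorem normDeriv_jFun_mul (τ : ℍ) :
    D jFun τ * ModularForm.discriminant τ = -(E₄ τ ^ 2 * E₆ τ) := by
  have h1 := congrArg (fun F : ℍ → ℂ => D F τ) jFun_mul_discriminant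
  beta_reduce at h1
  rw [Derivative.normalizedDerivOfComplex_mul _ _ mdiff_jFun mdiff_discriminant,
    Derivative.normalizedDerivOfComplex_pow _ 3 mdiff_E4,
    Fermat.Agent.S20.ramanujan_discriminant, Fermat.Agent.S20.ramanujan_E₄] at h1
  simp only [Pi.add_apply, Pi.mul_apply, Pi.pow_apply, Pi.smul_apply, Pi.sub_apply,
    smul_eq_mul, Pi.natCast_apply] at h1
  have h2 : jFun τ * ModularForm.discriminant τ = E₄ τ ^ 3 := by
    have := congrFun jFun_mul_discriminant τ
    simpa using this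
  have h3 : D jFun τ * ModularForm.discriminant τ =
      ((3 : ℕ) : ℂ) * E₄ τ ^ (3 - 1) * ((3 : ℂ)⁻¹ * (E2 τ * E₄ τ - E₆ τ)) -
        jFun τ * (E2 τ * ModularForm.discriminant τ) := by
    rw [← h1]; ring
  rw [h3]
  have h4 : jFun τ * (E2 τ * ModularForm.discriminant τ) = E2 τ * E₄ τ ^ 3 := by
    rw [← h2]; ring
  rw [h4]
  push_cast
  ring

theorem normDeriv_jFun_pow_six (τ : ℍ) :
    D jFun τ ^ 6 = ModularForm.discriminant τ * jFun τ ^ 4 * (jFun τ - 1728) ^ 3 := by
  have hd := discriminant_ne_zero τ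
  have h1 := normDeriv_jFun_mul τ
  have h2 := discriminant_eq_E₄_cube_sub_E₆_sq τ
  have hx : D jFun τ = -(E₄ τ ^ 2 * E₆ τ) / ModularForm.discriminant τ := by
    rw [eq_div_iff hd, h1]
  have hj : jFun τ - 1728 = E₆ τ ^ 2 / ModularForm.discriminant τ := by
    rw [eq_div_iff hd, sub_mul]
    have : jFun τ * ModularForm.discriminant τ = E₄ τ ^ 3 := by
      have := congrFun jFun_mul_discriminant τ
      simpa using this
    rw [this]
    have h3 : (1728 : ℂ) * ModularForm.discriminant τ = E₄ τ ^ 3 - E₆ τ ^ 2 := by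
      rw [h2]; field_simp
    rw [h3]; ring
  rw [hx, hj]
  have hj' : jFun τ = E₄ τ ^ 3 / ModularForm.discriminant τ := rfl
  rw [hj']
  field_simp

/-! ### The formal identity over `ℂ` -/

theorem hasQ_normDeriv_jFun : HasQ (D jFun) (theta ℂ (jqModC ℂ)) :=
  hasQ_normDeriv hasQ_jFun mdiff_jFun

theorem theta_identity_C :
    theta ℂ (jqModC ℂ) ^ 6 =
      deltaC * jqModC ℂ ^ 4 * (jqModC ℂ - HahnSeries.C (1728 : ℂ)) ^ 3 := by
  have hL := hasQ_normDeriv_jFun.pow 6
  have hR := (hasQ_discriminant.mul (hasQ_jFun.pow 4)).mul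
    ((hasQ_jFun.sub (hasQ_const 1728)).pow 3)
  refine hL.eq_of_eq hR fun τ => ?_
  simp only [Pi.mul_apply, Pi.pow_apply, Pi.sub_apply]
  exact normDeriv_jFun_pow_six τ

/-! ### The formal identity over `ℤ` and over every ring -/

theorem deltaC_eq : deltaC = wp10_DeltaF ℂ := rfl

theorem theta_identity_Z :
    theta ℤ (jqModC ℤ) ^ 6 =
      wp10_DeltaF ℤ * jqModC ℤ ^ 4 * (jqModC ℤ - HahnSeries.C (1728 : ℤ)) ^ 3 := by
  apply coeffMap_injective (RingHom.injective_int (Int.castRingHom ℂ))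
  rw [map_pow, coeffMap_theta, coeffMap_jqModC, map_mul, map_mul, map_pow, map_pow, map_sub,
    coeffMap_jqModC, wp10_coeffMap_DeltaF, coeffMap_hahnC, theta_identity_C, deltaC_eq]
  simp

/-- **`(θ j)^6 = Δ j^4 (j - 1728)^3`** over every commutative ring. -/
theorem theta_identity (R : Type*) [CommRing R] :
    theta R (jqModC R) ^ 6 =
      wp10_DeltaF R * jqModC R ^ 4 * (jqModC R - HahnSeries.C (1728 : R)) ^ 3 := by
  have h := congrArg (coeffMap (Int.castRingHom R)) theta_identity_Z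
  rw [map_pow, coeffMap_theta, coeffMap_jqModC, map_mul, map_mul, map_pow, map_pow, map_sub,
    coeffMap_jqModC, wp10_coeffMap_DeltaF, coeffMap_hahnC] at h
  simpa using h

end

end Fermat.Agent.IgusaDeg
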