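/-
Lib/IgusaDeg (helper94), part 6: **the canonical unit lies in `k(j(q^d) : d ∣ N)`**.

For a perfect field `k` in which `N` is invertible, the formal unit
`u = ∏_δ Δ(q^δ)^{m_δ} · Δ^{-φ}` (`wp10_formalUK k N`, the reduction of the unit of S28) lies in
`modularFunctionFieldFullC k N = k(j(q^d) : d ∣ N) ⊆ k((q))`.

Route: `Δ j⁴ (j - 1728)³ = (θ j)⁶` (`ThetaId.lean`), and for `δ ∣ N` the element `j_δ = j(q^δ)` is
separable over `k(j)` (`Lib/RR/SepLaurent.lean`, helper19), so `θ j_δ / θ j ∈ k(j, j_δ)` and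
`Δ(q^δ)/Δ = δ⁻⁶ (θ j_δ/θ j)⁶ j⁴ (j-1728)³ / (j_δ⁴ (j_δ - 1728)³) ∈ k(j, j_δ)`.
-/
import Mathlib
import Fermat.Agent.Lib.IgusaDeg.AlgJd
import Fermat.Agent.Lib.IgusaDeg.ThetaId
import Fermat.Agent.Lib.RR.SepLaurent

set_option autoImplicit false

namespace Fermat.Agent.IgusaDeg

open Polynomial ModularCurve Fermat.Agent.S28 IntermediateField

noncomputable section

variable (k : Type*) [Field k]

/-! ### Preliminaries -/

theorem order_jq : (jqModC k).order = -1 := by
  have h1 : (jqModC k).coeff (-1 : ℤ) ≠ 0 := by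
    rw [coeff_jqModC_neg_one]
    exact one_ne_zero
  have hle : (jqModC k).order ≤ -1 := HahnSeries.order_le_of_coeff_ne_zero h1
  refine le_antisymm hle ?_
  by_contra hlt
  push Not at hlt
  have hne : jqModC k ≠ 0 := jqModC_ne_zero_of_nontrivial k
  exact hne (HahnSeries.coeff_order_eq_zero.mp (coeff_jqModC_of_lt k hlt))

theorem pow_ne_jq {ℓ : ℕ} (hℓ : 2 ≤ ℓ) (y : LaurentSeries k) : y ^ ℓ ≠ jqModC k := by
  intro h
  have h1 := congrArg HahnSeries.order h
  rw [HahnSeries.order_pow, order_jq, nsmul_eq_mul] at h1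
  have h2 : (ℓ : ℤ) ∣ -1 := ⟨_, h1.symm⟩
  have h3 : (ℓ : ℤ) ∣ 1 := (dvd_neg.mp h2)
  have h4 := Int.le_of_dvd one_pos h3
  omega

instance infinite_laurent : Infinite (LaurentSeries k) :=
  Infinite.of_injective (fun n : ℕ => (HahnSeries.single (n : ℤ) (1 : k) : LaurentSeries k))
    fun a b h => by
      have h1 := congrArg (fun z : LaurentSeries k => z.coeff (a : ℤ)) h
      simp only [HahnSeries.coeff_single_same] at h1
      by_contra hab
      rw [HahnSeries.coeff_single_of_ne (by exact_mod_cast hab)] at h1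
      exact one_ne_zero h1

theorem natCast_laurent_ne_zero {n : ℕ} (hn : (n : k) ≠ 0) : ((n : ℕ) : LaurentSeries k) ≠ 0 := by
  have h : ((n : ℕ) : LaurentSeries k) = HahnSeries.C (n : k) := by rw [map_natCast]
  rw [h]
  intro h0
  rw [HahnSeries.C_apply] at h0
  have := congrArg (fun z : LaurentSeries k => z.coeff 0) h0
  simp only [HahnSeries.coeff_single_same, HahnSeries.coeff_zero] at this
  exact hn this

theorem qExpand_jq_sub_C_ne_zero (d : ℕ) [NeZero d] (c : k) :
    qExpand k d (jqModC k) - HahnSeries.C c ≠ 0 := by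
  intro h
  have h1 : qExpand k d (jqModC k) = qExpand k d (HahnSeries.C c) := by
    rw [qExpand_C]; exact sub_eq_zero.mp h
  have h2 := qExpand_injective (R := k) d h1
  have h3 := congrArg (fun z : LaurentSeries k => z.coeff (-1)) h2
  simp only [coeff_jqModC_neg_one, HahnSeries.C_apply] at h3
  rw [HahnSeries.coeff_single_of_ne (by decide)] at h3
  exact one_ne_zero h3

theorem qExpand_jq_ne_zero (d : ℕ) [NeZero d] : qExpand k d (jqModC k) ≠ 0 := by
  have := qExpand_jq_sub_C_ne_zero k d 0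
  rwa [map_zero, sub_zero] at this

theorem jq_sub_C_ne_zero (c : k) : jqModC k - HahnSeries.C c ≠ 0 := by
  have := qExpand_jq_sub_C_ne_zero k 1 c
  rwa [qExpand_one_apply] at this

/-! ### Membership of polynomial expressions -/

variable {k} in
theorem evJ_mem_of_mem (F : IntermediateField k (LaurentSeries k)) {j : LaurentSeries k}
    (hj : j ∈ F) (c : k[X]) : evJ j c ∈ F := by
  induction c using Polynomial.induction_on' with
  | add p q hp hq => rw [map_add]; exact add_mem hp hq
  | monomial n a =>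
    show aeval j (monomial n a) ∈ F
    rw [aeval_monomial]
    exact mul_mem (F.algebraMap_mem a) (pow_mem hj n)

variable {k} in
theorem pev2_mem_of_mem (F : IntermediateField k (LaurentSeries k)) {j x : LaurentSeries k}
    (hj : j ∈ F) (hx : x ∈ F) (Q : k[X][X]) : pev2 j x Q ∈ F := by
  induction Q using Polynomial.induction_on' with
  | add p q hp hq => rw [map_add]; exact add_mem hp hq
  | monomial n a =>
    rw [pev2_apply, eval₂_monomial, pev1_eq_evJ]
    exact mul_mem (evJ_mem_of_mem F hj a) (pow_mem hx n)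

variable {k} in
theorem hahnC_mem (F : IntermediateField k (LaurentSeries k)) (c : k) :
    (HahnSeries.C c : LaurentSeries k) ∈ F := by
  rw [hahnC_eq_algebraMap]
  exact F.algebraMap_mem c

/-! ### A separable relation between `j` and `j(q^d)` -/

theorem isSeparable_jd [PerfectField k] (d : ℕ) [NeZero d] :
    IsSeparable ↥(IntermediateField.adjoin k ({jqModC k} : Set (LaurentSeries k)))
      (qExpand k d (jqModC k)) := by
  have halg := isAlgebraic_jd k d
  obtain ⟨p, hp⟩ := CharP.exists k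
  rcases CharP.char_is_prime_or_zero k p with hp' | hp0
  · have : Fact p.Prime := ⟨hp'⟩
    exact Fermat.Agent.RRSep.isSeparable_of_isAlgebraic_adjoin p
      (fun y => pow_ne_jq k hp'.two_le y) halg
  · subst hp0
    have : CharZero k := CharP.charP_to_charZero k
    have : CharZero ↥(IntermediateField.adjoin k ({jqModC k} : Set (LaurentSeries k))) :=
      charZero_of_injective_algebraMap
        (algebraMap k ↥(IntermediateField.adjoin k ({jqModC k} : Set (LaurentSeries k)))).injective
    exact (minpoly.irreducible halg.isIntegral).separable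

/-- There is a relation `P(j, j_d) = 0` with `∂_X P (j, j_d) ≠ 0`. -/
theorem exists_sep_relation [PerfectField k] (d : ℕ) [NeZero d] :
    ∃ P : k[X][X], pev2 (jqModC k) (qExpand k d (jqModC k)) P = 0 ∧
      pev2 (jqModC k) (qExpand k d (jqModC k)) (derivative P) ≠ 0 := by
  set j := jqModC k with hj
  set x := qExpand k d (jqModC k) with hx
  have hsep := isSeparable_jd k d
  obtain ⟨b, P, hb, -, -, hev⟩ := exists_biv_of_poly j
    (minpoly ↥(IntermediateField.adjoin k ({j} : Set (LaurentSeries k))) x)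
  have hpoly : P.map (evJ j) = C (evJ j b) *
      (minpoly ↥(IntermediateField.adjoin k ({j} : Set (LaurentSeries k))) x).map
        (algebraMap ↥(IntermediateField.adjoin k ({j} : Set (LaurentSeries k)))
          (LaurentSeries k)) := by
    refine Polynomial.funext fun y => ?_
    rw [eval_map, hev y, eval_mul, eval_C, eval_map, aeval_def]
  refine ⟨P, ?_, ?_⟩
  · rw [pev2_eq_eval₂_evJ, hev, minpoly.aeval, mul_zero]
  · rw [pev2_eq_eval₂_evJ, ← eval_map, ← derivative_map, hpoly, derivative_C_mul, eval_mul,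
      eval_C, derivative_map, eval_map, ← aeval_def]
    refine mul_ne_zero ?_ ?_
    · intro h0
      exact hb (evJ_injective j (ordV_jqModC k) (h0.trans (map_zero _).symm))
    · exact hsep.aeval_derivative_ne_zero (minpoly.aeval _ x)

/-! ### `Δ(q^δ)/Δ ∈ k(j, j_δ)` -/

theorem delta_ratio_mem [PerfectField k] (N : ℕ) [NeZero N] (hN : (N : k) ≠ 0)
    (δ : ℕ) [NeZero δ] (hδ : δ ∣ N) :
    qExpand k δ (wp10_DeltaF k) / wp10_DeltaF k ∈ modularFunctionFieldFullC k N := by
  set F := modularFunctionFieldFullC k N with hF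
  set j := jqModC k with hj
  set x := qExpand k δ (jqModC k) with hx
  set Δ := wp10_DeltaF k with hΔdef
  set T := theta k j with hT
  have hjF : j ∈ F := jqModC_mem_full k N
  have hxF : x ∈ F := jqModCd_mem_full k N hδ
  obtain ⟨P, hP, hP'⟩ := exists_sep_relation k δ
  set A := pev2 j x (dY P) with hA
  set B := pev2 j x (derivative P) with hB
  have hAF : A ∈ F := pev2_mem_of_mem F hjF hxF _
  have hBF : B ∈ F := pev2_mem_of_mem F hjF hxF _
  -- the chain rule
  have h1 : A * T + B * theta k x = 0 := by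
    rw [← theta_pev2, hP, map_zero]
  have h2 : theta k x = (δ : LaurentSeries k) * qExpand k δ T := theta_qExpand δ j
  -- the two identities
  have I1 : T ^ 6 = Δ * j ^ 4 * (j - HahnSeries.C (1728 : k)) ^ 3 := theta_identity k
  have I2 : qExpand k δ T ^ 6 = qExpand k δ Δ * x ^ 4 * (x - HahnSeries.C (1728 : k)) ^ 3 := by
    have := congrArg (qExpand k δ) I1
    rwa [map_pow, map_mul, map_mul, map_pow, map_pow, map_sub, qExpand_C] at this
  -- nonvanishing
  have hδk : (δ : k) ≠ 0 := by
    obtain ⟨e, he⟩ := hδ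
    intro h0
    apply hN
    rw [he, Nat.cast_mul, h0, zero_mul]
  have hδL : ((δ : ℕ) : LaurentSeries k) ≠ 0 := natCast_laurent_ne_zero k hδk
  have hx0 : x ≠ 0 := qExpand_jq_ne_zero k δ
  have hx1 : x - HahnSeries.C (1728 : k) ≠ 0 := qExpand_jq_sub_C_ne_zero k δ _
  have hΔ0 : Δ ≠ 0 := (wp10_isMonicUnit_DeltaF (R := k)).ne_zero
  -- the key relation
  have h3 : B * ((δ : LaurentSeries k) * qExpand k δ T) = -(A * T) := by
    rw [← h2]; linear_combination h1
  have h4 : B ^ 6 * (δ : LaurentSeries k) ^ 6 * qExpand k δ T ^ 6 = A ^ 6 * T ^ 6 := by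
    have := congrArg (fun z => z ^ 6) h3
    beta_reduce at this
    rw [mul_pow, mul_pow, (by decide : Even 6).neg_pow, mul_pow] at this
    linear_combination this
  rw [I1, I2] at h4
  have hden : B ^ 6 * (δ : LaurentSeries k) ^ 6 * (x ^ 4 * (x - HahnSeries.C (1728 : k)) ^ 3) ≠ 0 :=
    mul_ne_zero (mul_ne_zero (pow_ne_zero _ hP') (pow_ne_zero _ hδL))
      (mul_ne_zero (pow_ne_zero _ hx0) (pow_ne_zero _ hx1))
  have heq : qExpand k δ Δ / Δ =
      (A ^ 6 * (j ^ 4 * (j - HahnSeries.C (1728 : k)) ^ 3)) /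
        (B ^ 6 * (δ : LaurentSeries k) ^ 6 * (x ^ 4 * (x - HahnSeries.C (1728 : k)) ^ 3)) := by
    rw [div_eq_div_iff hΔ0 hden]
    linear_combination h4
  rw [heq]
  have hcF : (HahnSeries.C (1728 : k) : LaurentSeries k) ∈ F := hahnC_mem F _
  have hδF : ((δ : ℕ) : LaurentSeries k) ∈ F := IntermediateField.natCast_mem F δ
  exact div_mem (mul_mem (pow_mem hAF 6) (mul_mem (pow_mem hjF 4) (pow_mem (sub_mem hjF hcF) 3)))
    (mul_mem (mul_mem (pow_mem hBF 6) (pow_mem hδF 6))
      (mul_mem (pow_mem hxF 4) (pow_mem (sub_mem hxF hcF) 3)))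

/-! ### The unit -/

theorem prod_zpow_const {ι : Type*} (s : Finset ι) (m : ι → ℤ) {L : Type*} [Field L] (a : L)
    (ha : a ≠ 0) : ∏ i ∈ s, a ^ m i = a ^ ∑ i ∈ s, m i := by
  classical
  induction s using Finset.induction_on with
  | empty => simp
  | insert i s hi ih => rw [Finset.prod_insert hi, Finset.sum_insert hi, ih, zpow_add₀ ha]

/-- **The canonical unit lies in `k(j(q^d) : d ∣ N)`.** -/
theorem formalUK_mem_full [PerfectField k] (N : ℕ) [NeZero N] (hN : (N : k) ≠ 0) :
    wp10_formalUK k N ∈ modularFunctionFieldFullC k N := by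
  have hN0 : N ≠ 0 := NeZero.ne N
  have hΔ0 : wp10_DeltaF k ≠ 0 := (wp10_isMonicUnit_DeltaF (R := k)).ne_zero
  have heq : wp10_formalUK k N =
      ∏ δ ∈ unitSet N, (wp10_qExp k δ (wp10_DeltaF k) / wp10_DeltaF k) ^ unitM N δ := by
    unfold wp10_formalUK
    simp only [div_zpow]
    rw [Finset.prod_div_distrib, prod_zpow_const _ _ _ hΔ0, sum_unitM N hN0, zpow_neg,
      div_eq_mul_inv]
  rw [heq]
  refine prod_mem fun δ hδ => zpow_mem ?_ _
  have : NeZero δ := ⟨wp3b_ne_zero_of_mem_unitSet hN0 hδ⟩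
  rw [wp10_qExp_apply]
  exact delta_ratio_mem k N hN δ (wp3b_dvd_of_mem_unitSet hδ)

end

end Fermat.Agent.IgusaDeg
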