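/-
Lib/IgusaDeg (helper94), part 7: the reduction of the S28 unit lies in `F_k` — in the shape asked
for by `Lib/GaussVal` (helper66):

  `ubar_mem : thmA_formalU N = muSeries ℚ a E → muSeries k a E ∈ modularFunctionFieldFullC k N`

for every perfect field `k` in which `N` is invertible.
-/
import Mathlib
import Fermat.Agent.Lib.IgusaDeg.UMem
import Fermat.Agent.S28.ThmAFormal
import Fermat.Agent.S28.DescentMain

set_option autoImplicit false

namespace Fermat.Agent.IgusaDeg

open Polynomial ModularCurve Fermat.Agent.S28 IntermediateField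

noncomputable section

theorem wp10_mk_eq_muSeries (R : Type*) [CommRing R] (a : ℤ) (E : PowerSeries ℤ) :
    wp10_mk R a E = muSeries R a E := rfl

theorem thmA_deltaQ_eq : thmA_deltaQ = wp10_DeltaF ℚ := rfl

/-- The two definitions of the formal unit over `ℚ` (helper78's and helper48's) agree. -/
theorem thmA_formalU_eq (N : ℕ) (hN : N ≠ 0) : thmA_formalU N = wp10_formalU N := by
  unfold thmA_formalU thmA_formalQuot wp10_formalU wp10_formalUK
  rw [thmA_deltaQ_eq, inv_pow, zpow_neg, zpow_natCast]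
  congr 1
  refine Finset.prod_congr rfl fun δ hδ => ?_
  have : NeZero δ := ⟨wp3b_ne_zero_of_mem_unitSet hN hδ⟩
  rw [thmA_deltaAtQ_of_ne_zero, wp10_qExp_apply, thmA_deltaQ_eq]

/-- The formal unit over `ℚ` is `q^e · E` with explicit `e`, `E`. -/
theorem thmA_formalU_eq_muSeries (N : ℕ) (hN : N ≠ 0) :
    thmA_formalU N =
      muSeries ℚ (∑ δ ∈ unitSet N, unitM N δ * (δ : ℤ) - unitPhi N) (wp10_formalE N) := by
  rw [thmA_formalU_eq N hN, wp10_formalU_eq_mk N hN, wp10_mk_eq_muSeries]

/-- Any presentation `q^a E` of the formal unit over `ℚ` gives the formal unit over `k`. -/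
theorem muSeries_eq_formalUK (k : Type*) [Field k] (N : ℕ) (hN : N ≠ 0) (a : ℤ)
    (E : PowerSeries ℤ) (hu : thmA_formalU N = muSeries ℚ a E) :
    muSeries k a E = wp10_formalUK k N := by
  have h3 : muSeries ℤ a E =
      muSeries ℤ (∑ δ ∈ unitSet N, unitM N δ * (δ : ℤ) - unitPhi N) (wp10_formalE N) := by
    apply coeffMap_injective (RingHom.injective_int (Int.castRingHom ℚ))
    rw [coeffMap_muSeries, coeffMap_muSeries, ← hu, thmA_formalU_eq_muSeries N hN]
  rw [← coeffMap_muSeries (Int.castRingHom k), h3, coeffMap_muSeries, wp10_formalUK_eq_mk N hN,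
    wp10_mk_eq_muSeries]

/-- **`ū ∈ F_k`**: the reduction of the canonical unit lies in `k(j(q^d) : d ∣ N)`. -/
theorem ubar_mem (k : Type*) [Field k] [PerfectField k] (N : ℕ) [NeZero N] (hNk : (N : k) ≠ 0)
    (a : ℤ) (E : PowerSeries ℤ) (hu : thmA_formalU N = muSeries ℚ a E) :
    muSeries k a E ∈ modularFunctionFieldFullC k N := by
  rw [muSeries_eq_formalUK k N (NeZero.ne N) a E hu]
  exact formalUK_mem_full k N hNk

/-- In characteristic `0`: the canonical unit lies in `ℚ(j(q^d) : d ∣ N)`. -/
theorem thmA_formalU_mem (N : ℕ) [NeZero N] :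
    thmA_formalU N ∈ modularFunctionFieldFull N := by
  have h := formalUK_mem_full ℚ N (by exact_mod_cast NeZero.ne N)
  rw [thmA_formalU_eq N (NeZero.ne N)]
  exact h

end

end Fermat.Agent.IgusaDeg
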