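/-
Cluster B, chain step (4), input (D) (helper94): the degree half of helper68's `JInputAt`.

* `finrank_jBar_eq_finrank_jC`: `[F_M : ℚ̄(j)] = [F_k : k(j̄)]` for every place `A` over `ℓ ∤ M`
  (helper66's degrees);
* `jInputAt_of_genusFF_eq`: `JInputAt A M` from the genus equality alone;
* `keyLemmaAt_of_genusFF_eq`: `KeyLemmaAt M` from the genus equalities at all places over
  primes `ℓ ∤ M`.
-/
import Mathlib
import Fermat.Agent.Lib.GaussInt.KeyAsm
import Fermat.Agent.Lib.GaussVal.Degree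

set_option autoImplicit false
set_option linter.unusedSectionVars false
set_option linter.style.haveILetI false
set_option synthInstance.maxHeartbeats 400000
set_option maxHeartbeats 1000000

noncomputable section

namespace Fermat.Agent.IgusaDeg

open ModularCurve IntermediateField AlgebraicCurve

variable (M : ℕ) [NeZero M]

/-- (D): `[F_M : ℚ̄(j)] = [F_k : k(j̄)]` at every place over `ℓ ∤ M`. -/
theorem finrank_jBar_eq_finrank_jC {ℓ : ℕ} (hℓ : ℓ.Prime)
    {A : ValuationSubring (AlgebraicClosure ℚ)} (hA : A.LiesOverPrime ℓ) (hℓM : ¬ ℓ ∣ M) :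
    Module.finrank (AlgebraicClosure ℚ)⟮Fermat.Agent.S24.jBar M⟯ ↥(modularFunctionFieldBar M) =
      Module.finrank
        (IsLocalRing.ResidueField A)⟮Fermat.Agent.RRMod.jC (IsLocalRing.ResidueField A) M⟯
        ↥(modularFunctionFieldFullC (IsLocalRing.ResidueField A) M) :=
  (Fermat.Agent.GaussVal.finrank_fullL_of_isAlgClosed A ℓ M hℓ hA hℓM
      (Fermat.Agent.S24.jBar M) (Fermat.Agent.S24.coe_jBar_eq_jqModC M)).trans
    (Fermat.Agent.GaussVal.finrank_fullC_of_isAlgClosed A ℓ M hℓ hA hℓM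
      (Fermat.Agent.RRMod.jC (IsLocalRing.ResidueField A) M)
      (Fermat.Agent.RRMod.coe_jC (IsLocalRing.ResidueField A) M)).symm

/-- `JInputAt A M` from the genus equality alone. -/
theorem jInputAt_of_genusFF_eq {ℓ : ℕ} (hℓ : ℓ.Prime)
    {A : ValuationSubring (AlgebraicClosure ℚ)} (hA : A.LiesOverPrime ℓ) (hℓM : ¬ ℓ ∣ M)
    (hg : genusFF (AlgebraicClosure ℚ) ↥(modularFunctionFieldBar M) =
      genusFF (IsLocalRing.ResidueField A)
        ↥(modularFunctionFieldFullC (IsLocalRing.ResidueField A) M)) :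
    Fermat.Agent.GaussInt.JInputAt A M :=
  ⟨hg, (finrank_jBar_eq_finrank_jC M hℓ hA hℓM).le⟩

/-- **`KeyLemmaAt M`** from the genus equalities `g(F_M) = g(F_{M,k})` at all places over
primes `ℓ ∤ M`. -/
theorem keyLemmaAt_of_genusFF_eq
    (h : ∀ (ℓ : ℕ), ℓ.Prime → ∀ A : ValuationSubring (AlgebraicClosure ℚ),
      A.LiesOverPrime ℓ → ¬ ℓ ∣ M →
        genusFF (AlgebraicClosure ℚ) ↥(modularFunctionFieldBar M) =
          genusFF (IsLocalRing.ResidueField A)
            ↥(modularFunctionFieldFullC (IsLocalRing.ResidueField A) M)) :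
    Fermat.Agent.GaussInt.KeyLemmaAt M :=
  Fermat.Agent.GaussInt.keyLemmaAt_of_jInput M fun ℓ hℓ A hA hℓM =>
    jInputAt_of_genusFF_eq M hℓ hA hℓM (h ℓ hℓ A hA hℓM)

end Fermat.Agent.IgusaDeg
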