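/-
Cluster B / GoodRed, WP (M), DEGREE wiring (helper94).

* `card_Q_eq_index`: `#(SL₂(ℤ)/Γ₀(N)) = [SL₂(ℤ) : Γ₀(N)]` (`S23.Q N` vs `(Gamma0 N).index`);
* `modularRedModel_xbar`: the reduction of `j` in helper24's `modularRedModel` is helper19's
  `RRMod.jC`;
* `isSeparable_xbar`: `F_k / k(j̄)` is separable (`sepk` of `DegData`), from helper19's
  `isSeparable_fullC'` + `IsAlgClosed (ResidueField A)`;
* `finrank_xbar_of_finrank`: transport of the degree `[F_k : k(j̄)]` along any presentation of
  `j̄` as an element of `F_k`;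
* `finrank_xbar`: **`degk`**, unconditional for `ℓ ∤ N` (helper66's `finrank_fullC_of_isAlgClosed`);
* `degData_modular`, `degData_modularRedModelOf`: **`DegData`** of the modular `RedModel`,
  unconditional for `ℓ ∤ N`, `n = [SL₂(ℤ) : Γ₀(N)]`.
-/
import Mathlib
import Fermat.Agent.Lib.GoodRed.ModularData
import Fermat.Agent.Lib.GaussVal.Degree
import Fermat.Agent.Lib.RR.OfModularCFinal
import Fermat.Agent.Lib.FrobTrace.Residue
import Fermat.Agent.S23.Lagrange

set_option autoImplicit false
set_option linter.unusedSectionVars false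
set_option linter.style.haveILetI false

noncomputable section

namespace Fermat.Agent.IgusaDeg

open MatrixGroups Matrix.SpecialLinearGroup ModularCurve IntermediateField

/-- `#(SL₂(ℤ)/Γ₀(N)) = [SL₂(ℤ) : Γ₀(N)]`. -/
theorem card_Q_eq_index (N : ℕ) [NeZero N] :
    Fintype.card (Fermat.Agent.S23.Q N) = (CongruenceSubgroup.Gamma0 N).index := by
  rw [← Nat.card_eq_fintype_card]
  show (Fermat.Agent.S23.G0 N).relIndex 𝒮ℒ = _
  unfold Fermat.Agent.S23.G0
  rw [MonoidHom.range_eq_map, Subgroup.relIndex_map_map_of_injective _ _ mapGL_injective,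
    Subgroup.relIndex_top_right]

variable (N : ℕ) [NeZero N] {ℓ : ℕ} (hℓ : ℓ.Prime)
  {A : ValuationSubring (AlgebraicClosure ℚ)} (hA : A.LiesOverPrime ℓ)
  (hR : Fermat.Agent.GoodRed.RangeAt N A)

set_option synthInstance.maxHeartbeats 400000 in
set_option maxHeartbeats 1000000 in
/-- the reduction of `j` in the modular `RedModel` is `j̄ = jqModC k`, as an element of `F_k`. -/
theorem modularRedModel_xbar :
    (Fermat.Agent.GoodRed.modularRedModel N hℓ hA hR).xbar
      = Fermat.Agent.RRMod.jC (IsLocalRing.ResidueField A) N :=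
  Subtype.ext (Fermat.Agent.GoodRed.coe_modularRedModel_xbar N hℓ hA hR)

set_option synthInstance.maxHeartbeats 400000 in
set_option maxHeartbeats 1000000 in
/-- **`sepk`**: `F_k / k(j̄)` is separable. -/
theorem isSeparable_xbar :
    Algebra.IsSeparable
      (IntermediateField.adjoin (IsLocalRing.ResidueField A)
        {(Fermat.Agent.GoodRed.modularRedModel N hℓ hA hR).xbar})
      ↥(modularFunctionFieldFullC (IsLocalRing.ResidueField A) N) := by
  haveI : IsAlgClosed (IsLocalRing.ResidueField A) :=
    Fermat.Agent.FrobTrace.isAlgClosed_residueField A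
  rw [modularRedModel_xbar]
  exact Fermat.Agent.RRMod.isSeparable_fullC' (IsLocalRing.ResidueField A) N

set_option synthInstance.maxHeartbeats 400000 in
set_option maxHeartbeats 1000000 in
/-- **`degk`** from the degree of `F_k / k(j̄)` in the form `#Q(N)`, for any presentation `x`
of `j̄` as an element of `F_k`. -/
theorem finrank_xbar_of_finrank
    (x : ↥(modularFunctionFieldFullC (IsLocalRing.ResidueField A) N))
    (hx : (x : LaurentSeries (IsLocalRing.ResidueField A)) = jqModC (IsLocalRing.ResidueField A))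
    (hdeg : Module.finrank (IntermediateField.adjoin (IsLocalRing.ResidueField A) {x})
        ↥(modularFunctionFieldFullC (IsLocalRing.ResidueField A) N)
          = Fintype.card (Fermat.Agent.S23.Q N)) :
    Module.finrank
        (IntermediateField.adjoin (IsLocalRing.ResidueField A)
          {(Fermat.Agent.GoodRed.modularRedModel N hℓ hA hR).xbar})
        ↥(modularFunctionFieldFullC (IsLocalRing.ResidueField A) N)
          = (CongruenceSubgroup.Gamma0 N).index := by
  have hxx : (Fermat.Agent.GoodRed.modularRedModel N hℓ hA hR).xbar = x :=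
    Subtype.ext ((Fermat.Agent.GoodRed.coe_modularRedModel_xbar N hℓ hA hR).trans hx.symm)
  rw [hxx, hdeg, card_Q_eq_index]

set_option synthInstance.maxHeartbeats 400000 in
set_option maxHeartbeats 1000000 in
/-- `DegData` of the modular `RedModel` from the degree `[F_k : k(j̄)] = #Q(N)` alone. -/
theorem degData_of_finrank
    (x : ↥(modularFunctionFieldFullC (IsLocalRing.ResidueField A) N))
    (hx : (x : LaurentSeries (IsLocalRing.ResidueField A)) = jqModC (IsLocalRing.ResidueField A))
    (hdeg : Module.finrank (IntermediateField.adjoin (IsLocalRing.ResidueField A) {x})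
        ↥(modularFunctionFieldFullC (IsLocalRing.ResidueField A) N)
          = Fintype.card (Fermat.Agent.S23.Q N)) :
    Fermat.Agent.GoodRed.DegData (Fermat.Agent.GoodRed.modularRedModel N hℓ hA hR)
      (CongruenceSubgroup.Gamma0 N).index :=
  Fermat.Agent.GoodRed.degData_modularRedModel N hℓ hA hR
    (finrank_xbar_of_finrank N hℓ hA hR x hx hdeg) (isSeparable_xbar N hℓ hA hR)

set_option synthInstance.maxHeartbeats 400000 in
set_option maxHeartbeats 1000000 in
/-- **`degk`**, unconditional for `ℓ ∤ N`: `[F_k : k(j̄)] = [SL₂(ℤ) : Γ₀(N)]`. -/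
theorem finrank_xbar (hℓN : ¬ ℓ ∣ N) :
    Module.finrank
        (IntermediateField.adjoin (IsLocalRing.ResidueField A)
          {(Fermat.Agent.GoodRed.modularRedModel N hℓ hA hR).xbar})
        ↥(modularFunctionFieldFullC (IsLocalRing.ResidueField A) N)
          = (CongruenceSubgroup.Gamma0 N).index :=
  finrank_xbar_of_finrank N hℓ hA hR _
    (Fermat.Agent.GoodRed.coe_modularRedModel_xbar N hℓ hA hR)
    (Fermat.Agent.GaussVal.finrank_fullC_of_isAlgClosed A ℓ N hℓ hA hℓN _
      (Fermat.Agent.GoodRed.coe_modularRedModel_xbar N hℓ hA hR))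

set_option synthInstance.maxHeartbeats 400000 in
set_option maxHeartbeats 1000000 in
/-- **`DegData`** of the modular `RedModel` at a place over `ℓ ∤ N`, unconditional:
`[F : ℚ̄(j)] = [SL₂(ℤ) : Γ₀(N)] = [F_k : k(j̄)]`, and `F_k / k(j̄)` is separable. -/
theorem degData_modular (hℓN : ¬ ℓ ∣ N) :
    Fermat.Agent.GoodRed.DegData (Fermat.Agent.GoodRed.modularRedModel N hℓ hA hR)
      (CongruenceSubgroup.Gamma0 N).index :=
  Fermat.Agent.GoodRed.degData_modularRedModel N hℓ hA hR
    (finrank_xbar N hℓ hA hR hℓN) (isSeparable_xbar N hℓ hA hR)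

set_option synthInstance.maxHeartbeats 400000 in
set_option maxHeartbeats 1000000 in
/-- **`DegData`** of `modularRedModelOf`, unconditional. -/
theorem degData_modularRedModelOf (hℓN : ¬ ℓ ∣ N) :
    Fermat.Agent.GoodRed.DegData (Fermat.Agent.GoodRed.modularRedModelOf N hℓ hA hℓN)
      (CongruenceSubgroup.Gamma0 N).index :=
  degData_modular N hℓ hA (Fermat.Agent.GoodRed.rangeAt N hℓ hA hℓN) hℓN

end Fermat.Agent.IgusaDeg
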